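import Fermat.Prelude.Def_Algebra_PatchingDatum
import Mathlib.LinearAlgebra.Basis.Basic
import Mathlib.LinearAlgebra.FreeModule.Basic
import Mathlib.RingTheory.Ideal.Maps
import Mathlib.RingTheory.Ideal.Operations

set_option autoImplicit false

namespace Fermat.Agent.S57

open MvPowerSeries

section
variable {𝒪 : Type} [CommRing 𝒪] {r : ℕ} {R : Type} [CommRing R] [Algebra 𝒪 R]
  {M : Type} [AddCommGroup M] [Module R M] {J : Ideal (MvPowerSeries (Fin r) 𝒪)}
  (L : Algebra.PatchingLevel 𝒪 r R M J)

/-- The relation ideal `I = (φ X_i)`. -/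
noncomputable def relIdeal : Ideal (MvPowerSeries (Fin r) 𝒪) :=
  Ideal.span (Set.range fun i : Fin r => L.φ (MvPowerSeries.X i))

lemma relIdeal_le_ker : relIdeal L ≤ RingHom.ker L.ψ := by
  unfold relIdeal
  rw [Ideal.span_le]
  rintro _ ⟨i, rfl⟩
  exact L.ψ_φ_X i

lemma pi_sum {ι : Type*} (s : Finset ι) (f : ι → L.N) :
    L.π (∑ i ∈ s, f i) = ∑ i ∈ s, L.π (f i) := map_sum L.π f s

variable {ι : Type*} (e : Module.Basis ι (MvPowerSeries (Fin r) 𝒪) L.N)

/-- coordinates of an element of `I • N` lie in `I`. -/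
lemma repr_mem_of_mem_smul_top (I : Ideal (MvPowerSeries (Fin r) 𝒪)) (x : L.N)
    (hx : x ∈ I • (⊤ : Submodule (MvPowerSeries (Fin r) 𝒪) L.N)) (j : ι) :
    e.repr x j ∈ I := by
  rw [← e.span_eq] at hx
  obtain ⟨a, ha, rfl⟩ := (Submodule.mem_ideal_smul_span_iff_exists_sum I e x).1 hx
  have : e.repr (a.sum fun i c => c • e i) = a := by
    have h1 : (a.sum fun i c => c • e i) = Finsupp.linearCombination _ e a := rfl
    rw [h1, e.repr_linearCombination]
  rw [this]
  exact ha j

lemma pi_eq_zero_iff_repr (x : L.N) :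
    L.π x = 0 ↔ ∀ j, e.repr x j ∈ relIdeal L := by
  rw [L.ker_π]
  constructor
  · intro hx j
    exact repr_mem_of_mem_smul_top L e _ x hx j
  · intro h
    rw [← e.linearCombination_repr x, Finsupp.linearCombination_apply, Finsupp.sum]
    refine Submodule.sum_mem _ fun j _ => ?_
    exact Submodule.smul_mem_smul (h j) Submodule.mem_top

end

theorem endgame {𝒪 : Type} [CommRing 𝒪] {r : ℕ} {R : Type} [CommRing R] [Algebra 𝒪 R]
    {M : Type} [AddCommGroup M] [Module R M] [Nontrivial M]
    {J : Ideal (MvPowerSeries (Fin r) 𝒪)}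
    (L : Algebra.PatchingLevel 𝒪 r R M J)
    [Module.Free (MvPowerSeries (Fin r) 𝒪) L.N] :
    Module.Free R M ∧ Module.annihilator R M = ⊥ ∧
      RingHom.ker L.ψ = Ideal.span (Set.range fun i : Fin r => L.φ (MvPowerSeries.X i)) := by
  classical
  set A := MvPowerSeries (Fin r) 𝒪 with hA
  let ι := Module.Free.ChooseBasisIndex A L.N
  let e : Module.Basis ι A L.N := Module.Free.chooseBasis A L.N
  -- the index type is nonempty
  have hne : Nonempty ι := by
    by_contra hemp
    rw [not_nonempty_iff] at hemp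
    have hN : ∀ x : L.N, x = 0 := fun x => by
      rw [← e.linearCombination_repr x]
      have : e.repr x = 0 := Finsupp.ext fun j => (hemp.false j).elim
      rw [this, map_zero]
    obtain ⟨m, hm⟩ := exists_ne (0 : M)
    obtain ⟨x, rfl⟩ := L.π_surjective m
    exact hm (by rw [hN x, map_zero])
  obtain ⟨j₀⟩ := hne
  -- kernel of ψ
  have hker : RingHom.ker L.ψ = relIdeal L := by
    refine le_antisymm (fun f hf => ?_) (relIdeal_le_ker L)
    have h0 : L.π (f • e j₀) = 0 := by
      rw [L.π_smul, (RingHom.mem_ker).1 hf, zero_smul]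
    have := (pi_eq_zero_iff_repr L e _).1 h0 j₀
    simpa using this
  -- linear independence of π ∘ e
  have hli : LinearIndependent R (fun j => L.π (e j)) := by
    rw [linearIndependent_iff']
    intro s g hg j hj
    choose a ha using fun j => L.ψ_surjective (g j)
    have h0 : L.π (∑ i ∈ s, a i • e i) = 0 := by
      rw [map_sum]
      simp only [L.π_smul, ha]
      exact hg
    have h1 := (pi_eq_zero_iff_repr L e _).1 h0 j
    have h2 : e.repr (∑ i ∈ s, a i • e i) j = a j := by
      simp [map_sum, Finsupp.single_apply, hj]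
    rw [h2] at h1
    rw [← ha j]
    exact relIdeal_le_ker L h1
  have hsp : ⊤ ≤ Submodule.span R (Set.range fun j => L.π (e j)) := by
    rintro m -
    obtain ⟨x, rfl⟩ := L.π_surjective m
    rw [← e.linearCombination_repr x, Finsupp.linearCombination_apply, Finsupp.sum, map_sum]
    refine Submodule.sum_mem _ fun j _ => ?_
    rw [L.π_smul]
    exact Submodule.smul_mem _ _ (Submodule.subset_span ⟨j, rfl⟩)
  let bM : Module.Basis ι R M := Module.Basis.mk hli hsp
  refine ⟨Module.Free.of_basis bM, ?_, hker⟩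
  rw [eq_bot_iff]
  intro x hx
  rw [Module.mem_annihilator] at hx
  have h1 := hx (L.π (e j₀))
  have := linearIndependent_iff'.1 hli {j₀} (fun _ => x) (by simpa using h1) j₀ (by simp)
  simpa using this

end Fermat.Agent.S57
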