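import Mathlib.RingTheory.MvPowerSeries.Inverse
import Mathlib.RingTheory.MvPowerSeries.Equiv
import Mathlib.RingTheory.MvPowerSeries.NoZeroDivisors
import Mathlib.RingTheory.Regular.RegularSequence
import Mathlib.RingTheory.DiscreteValuationRing.Basic

set_option autoImplicit false

namespace Fermat.Agent.S57

open MvPowerSeries

section CoeffIdeal

variable {O : Type*} [CommRing O] {σ : Type*}

/-- The ideal of power series all of whose coefficients at monomials not involving the
variables in `s` lie in `I`.  This is the ideal generated by `I` and the `X j`, `j ∈ s`. -/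
def coeffIdeal (I : Ideal O) (s : Set σ) : Ideal (MvPowerSeries σ O) where
  carrier := {f | ∀ m : σ →₀ ℕ, (∀ j ∈ s, m j = 0) → coeff m f ∈ I}
  add_mem' := by
    intro f g hf hg m hm
    rw [map_add]
    exact I.add_mem (hf m hm) (hg m hm)
  zero_mem' := by
    intro m _
    simp
  smul_mem' := by
    classical
    intro g f hf m hm
    rw [smul_eq_mul, coeff_mul]
    refine I.sum_mem fun p hp => ?_
    have hpm : p.1 + p.2 = m := by simpa using hp
    refine I.mul_mem_left _ (hf _ fun j hj => ?_)
    have h1 : p.1 j + p.2 j = m j := by rw [← hpm]; rfl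
    have h2 := hm j hj
    omega

theorem mem_coeffIdeal {I : Ideal O} {s : Set σ} {f : MvPowerSeries σ O} :
    f ∈ coeffIdeal I s ↔ ∀ m : σ →₀ ℕ, (∀ j ∈ s, m j = 0) → coeff m f ∈ I :=
  Iff.rfl

theorem X_mul_mem_coeffIdeal {I : Ideal O} {s : Set σ} {i : σ} (hi : i ∉ s)
    {f : MvPowerSeries σ O} (h : X i * f ∈ coeffIdeal I s) : f ∈ coeffIdeal I s := by
  classical
  intro m hm
  have h1 := h (Finsupp.single i 1 + m) (fun j hj => by
    have hji : j ≠ i := fun e => hi (e ▸ hj)
    simp [hm j hj, hji.symm])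
  rwa [X_def, coeff_add_monomial_mul, one_mul] at h1

theorem C_mem_coeffIdeal {I : Ideal O} {s : Set σ} {a : O} (ha : a ∈ I) :
    (C a : MvPowerSeries σ O) ∈ coeffIdeal I s := by
  classical
  intro m _
  rw [coeff_C]
  split_ifs
  · exact ha
  · exact I.zero_mem

theorem X_mem_coeffIdeal {I : Ideal O} {s : Set σ} {j : σ} (hj : j ∈ s) :
    (X j : MvPowerSeries σ O) ∈ coeffIdeal I s := by
  classical
  intro m hm
  rw [coeff_X]
  split_ifs with h
  · exfalso
    have := hm j hj
    rw [h] at this
    simp at this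
  · exact I.zero_mem

/-- The power series with prescribed coefficients. -/
def mkSeries (c : (σ →₀ ℕ) → O) : MvPowerSeries σ O := c

theorem coeff_mkSeries (c : (σ →₀ ℕ) → O) (m : σ →₀ ℕ) : coeff m (mkSeries c) = c m := rfl

/-- Decomposition `f = X j * (shift) + (part not involving X j)`. -/
theorem exists_eq_X_mul_add (j : σ) (f : MvPowerSeries σ O) :
    ∃ g h : MvPowerSeries σ O, f = X j * g + h ∧
      ∀ m : σ →₀ ℕ, coeff m h = if m j = 0 then coeff m f else 0 := by
  classical
  refine ⟨mkSeries fun m => coeff (m + Finsupp.single j 1) f,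
    mkSeries fun m => if m j = 0 then coeff m f else 0, ?_, fun m => rfl⟩
  ext m
  rw [map_add, X_def, coeff_monomial_mul, one_mul, coeff_mkSeries, coeff_mkSeries]
  by_cases hm : m j = 0
  · have : ¬ (Finsupp.single j 1 ≤ m) := by
      intro hle
      have := hle j
      simp [hm] at this
    rw [if_neg this, zero_add, if_pos hm]
  · have hle : Finsupp.single j 1 ≤ m := by
      intro i
      by_cases hij : i = j
      · subst hij
        simp only [Finsupp.single_eq_same]
        omega
      · rw [Finsupp.single_apply, if_neg (Ne.symm hij)]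
        exact Nat.zero_le _
    rw [if_pos hle, if_neg hm, add_zero, tsub_add_cancel_of_le hle]

theorem coeffIdeal_le_span (ϖ : O) (s : Finset σ) :
    coeffIdeal (Ideal.span {ϖ}) (↑s : Set σ) ≤
      Ideal.span (insert (C ϖ : MvPowerSeries σ O) ((fun j => (X j : MvPowerSeries σ O)) '' ↑s)) := by
  classical
  induction s using Finset.induction_on with
  | empty =>
    intro f hf
    have hf' : ∀ m : σ →₀ ℕ, ∃ c : O, c * ϖ = coeff m f := fun m =>
      Ideal.mem_span_singleton'.mp (hf m (by simp))
    choose c hc using hf'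
    have : f = C ϖ * mkSeries c := by
      ext m
      rw [coeff_C_mul, coeff_mkSeries, ← hc m, mul_comm]
    rw [this]
    exact Ideal.mul_mem_right _ _ (Ideal.subset_span (Set.mem_insert _ _))
  | insert j s hj ih =>
    intro f hf
    obtain ⟨g, h, hfg, hh⟩ := exists_eq_X_mul_add j f
    rw [hfg]
    refine Ideal.add_mem _ (Ideal.mul_mem_right _ _ (Ideal.subset_span ?_)) ?_
    · exact Set.mem_insert_of_mem _ ⟨j, by simp, rfl⟩
    · have hh' : h ∈ coeffIdeal (Ideal.span {ϖ}) (↑s : Set σ) := by
        intro m hm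
        rw [hh m]
        split_ifs with hmj
        · refine hf m fun i hi => ?_
          rw [Finset.coe_insert] at hi
          rcases hi with rfl | hi
          · exact hmj
          · exact hm i hi
        · exact Ideal.zero_mem _
      refine Ideal.span_mono ?_ (ih hh')
      refine Set.insert_subset_insert (Set.image_mono ?_)
      rw [Finset.coe_insert]
      exact Set.subset_insert _ _

theorem coeffIdeal_eq_span (ϖ : O) (s : Finset σ) :
    coeffIdeal (Ideal.span {ϖ}) (↑s : Set σ) =
      Ideal.span (insert (C ϖ : MvPowerSeries σ O) ((fun j => (X j : MvPowerSeries σ O)) '' ↑s)) := by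
  refine le_antisymm (coeffIdeal_le_span ϖ s) (Ideal.span_le.mpr ?_)
  rintro f (rfl | ⟨j, hj, rfl⟩)
  · exact C_mem_coeffIdeal (Ideal.subset_span rfl)
  · exact X_mem_coeffIdeal hj

end CoeffIdeal

section Main

theorem mem_take_ofFn {α : Type*} {r : ℕ} (f : Fin r → α) (k : ℕ) (x : α) :
    x ∈ (List.ofFn f).take k ↔ ∃ j : Fin r, j.val < k ∧ f j = x := by
  rw [List.mem_take_iff_getElem]
  constructor
  · rintro ⟨i, hi, rfl⟩
    rw [List.length_ofFn] at hi
    exact ⟨⟨i, (lt_min_iff.mp hi).2⟩, (lt_min_iff.mp hi).1, by simp⟩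
  · rintro ⟨j, hj, rfl⟩
    exact ⟨j.val, by rw [List.length_ofFn]; exact lt_min hj j.isLt, by simp⟩

variable {O : Type*} [CommRing O]

theorem ofList_take_succ_params (r : ℕ) (ϖ : O) (k : ℕ) :
    Ideal.ofList ((C ϖ :: List.ofFn (fun i : Fin r => (X i : MvPowerSeries (Fin r) O))).take (k + 1))
      = coeffIdeal (Ideal.span {ϖ}) {j : Fin r | j.val < k} := by
  classical
  have hs : {j : Fin r | j.val < k} = ↑(Finset.univ.filter fun j : Fin r => j.val < k) := by
    ext j; simp
  rw [hs, coeffIdeal_eq_span, List.take_succ_cons, Ideal.ofList]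
  congr 1
  ext x
  simp only [List.mem_cons, Set.mem_ofPred_eq, Set.mem_insert_iff, Set.mem_image, Finset.coe_filter,
    Finset.mem_univ, true_and, mem_take_ofFn]

theorem isWeaklyRegular_params [IsDomain O] (r : ℕ) {ϖ : O} (hϖ : ϖ ≠ 0) :
    RingTheory.Sequence.IsWeaklyRegular (MvPowerSeries (Fin r) O)
      (C ϖ :: List.ofFn (fun i : Fin r => (X i : MvPowerSeries (Fin r) O))) := by
  rw [RingTheory.Sequence.isWeaklyRegular_iff]
  intro i hi
  rw [isSMulRegular_quotient_iff_mem_of_smul_mem]
  rcases i with _ | k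
  · intro f hf
    rw [List.take_zero, Ideal.ofList_nil, Submodule.bot_smul, Submodule.mem_bot] at hf ⊢
    rw [List.getElem_cons_zero, smul_eq_mul, mul_eq_zero] at hf
    rcases hf with h | h
    · exact absurd (C_injective (h.trans (map_zero _).symm)) hϖ
    · exact h
  · have hk : k < r := by simpa using hi
    intro f hf
    rw [smul_eq_mul, Ideal.mul_top, ofList_take_succ_params] at hf ⊢
    have hget : (C ϖ :: List.ofFn (fun i : Fin r => (X i : MvPowerSeries (Fin r) O)))[k + 1]
        = X (⟨k, hk⟩ : Fin r) := by simp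
    rw [hget, smul_eq_mul] at hf
    exact X_mul_mem_coeffIdeal (i := (⟨k, hk⟩ : Fin r)) (by simp) hf

theorem ofList_params_eq_coeffIdeal (r : ℕ) (ϖ : O) :
    Ideal.ofList (C ϖ :: List.ofFn (fun i : Fin r => (X i : MvPowerSeries (Fin r) O)))
      = coeffIdeal (Ideal.span {ϖ}) (Set.univ : Set (Fin r)) := by
  have h := ofList_take_succ_params r ϖ r
  have h1 : (C ϖ :: List.ofFn (fun i : Fin r => (X i : MvPowerSeries (Fin r) O))).take (r + 1)
      = C ϖ :: List.ofFn (fun i : Fin r => (X i : MvPowerSeries (Fin r) O)) := by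
    apply List.take_of_length_le
    simp
  have h2 : {j : Fin r | j.val < r} = Set.univ := by
    ext j; simp
  rw [h1, h2] at h
  exact h

variable [IsDomain O] [IsDiscreteValuationRing O]

theorem ofList_params_eq_maximalIdeal (r : ℕ) {ϖ : O} (hϖ : Irreducible ϖ) :
    Ideal.ofList (C ϖ :: List.ofFn (fun i : Fin r => (X i : MvPowerSeries (Fin r) O)))
      = IsLocalRing.maximalIdeal (MvPowerSeries (Fin r) O) := by
  rw [ofList_params_eq_coeffIdeal, ← hϖ.maximalIdeal_eq]
  ext f
  rw [IsLocalRing.mem_maximalIdeal, mem_nonunits_iff, isUnit_iff_constantCoeff, mem_coeffIdeal]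
  constructor
  · intro h
    have := h 0 (by simp)
    rwa [IsLocalRing.mem_maximalIdeal, mem_nonunits_iff] at this
  · intro h m hm
    have hm0 : m = 0 := by
      ext j
      simpa using hm j (Set.mem_univ j)
    rw [hm0, IsLocalRing.mem_maximalIdeal, mem_nonunits_iff]
    exact h

theorem isRegular_params (r : ℕ) {ϖ : O} (hϖ : Irreducible ϖ) :
    RingTheory.Sequence.IsRegular (MvPowerSeries (Fin r) O)
      (C ϖ :: List.ofFn (fun i : Fin r => (X i : MvPowerSeries (Fin r) O))) := by
  refine ⟨isWeaklyRegular_params r hϖ.ne_zero, ?_⟩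
  rw [smul_eq_mul, Ideal.mul_top, ofList_params_eq_maximalIdeal r hϖ]
  exact (IsLocalRing.maximalIdeal.isMaximal _).ne_top.symm

/-- Packaged form: `O⟦X₁,…,X_r⟧` (`O` a DVR) has a regular sequence generating its maximal ideal. -/
theorem exists_regular_generators (r : ℕ) :
    ∃ ys : List (MvPowerSeries (Fin r) O),
      RingTheory.Sequence.IsRegular (MvPowerSeries (Fin r) O) ys ∧
        Ideal.ofList ys = IsLocalRing.maximalIdeal (MvPowerSeries (Fin r) O) := by
  obtain ⟨ϖ, hϖ⟩ := IsDiscreteValuationRing.exists_irreducible O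
  exact ⟨_, isRegular_params r hϖ, ofList_params_eq_maximalIdeal r hϖ⟩

/-- Same, also recording the length `r + 1` of the sequence. -/
theorem exists_regular_generators_length (r : ℕ) :
    ∃ ys : List (MvPowerSeries (Fin r) O), ys.length = r + 1 ∧
      RingTheory.Sequence.IsRegular (MvPowerSeries (Fin r) O) ys ∧
        Ideal.ofList ys = IsLocalRing.maximalIdeal (MvPowerSeries (Fin r) O) := by
  obtain ⟨ϖ, hϖ⟩ := IsDiscreteValuationRing.exists_irreducible O
  exact ⟨_, by simp, isRegular_params r hϖ, ofList_params_eq_maximalIdeal r hϖ⟩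

end Main

end Fermat.Agent.S57
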