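import Fermat.Agent.S57.FreeOfDepth
import Mathlib.Algebra.Module.Torsion.Basic
import Mathlib.RingTheory.Regular.Flat
import Mathlib.RingTheory.LocalRing.ResidueField.Basic
import Mathlib.RingTheory.SimpleModule.Basic
import Mathlib.RingTheory.FiniteLength

set_option autoImplicit false
set_option linter.style.haveILetI false

namespace Fermat.Agent.S57

open CategoryTheory IsLocalRing RingTheory.Sequence

universe u

section FiniteLength

variable {A B : Type*} [CommRing A] [CommRing B] [Algebra A B] [IsLocalRing A]
  [IsNoetherianRing B]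
  {N : Type*} [AddCommGroup N] [Module A N] [Module B N] [IsScalarTower A B N]
  [Module.Finite A N]

/-- If `N` is a `B`-module which is finite over a local ring `A` mapping to `B`, then
`N / 𝔪_A N` has finite length over `B`. -/
theorem isFiniteLength_quotient_map_maximalIdeal_smul_top :
    IsFiniteLength B
      (N ⧸ ((maximalIdeal A).map (algebraMap A B)) • (⊤ : Submodule B N)) := by
  set P : Submodule B N := ((maximalIdeal A).map (algebraMap A B)) • (⊤ : Submodule B N) with hP
  have hfinB : Module.Finite B N := Module.Finite.of_restrictScalars_finite A B N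
  have hfinA : Module.Finite A (N ⧸ P) :=
    Module.Finite.of_surjective ((P.mkQ).restrictScalars A) (Submodule.mkQ_surjective P)
  have htors : Module.IsTorsionBySet A (N ⧸ P) (maximalIdeal A : Set A) := by
    rintro x ⟨a, ha⟩
    obtain ⟨n, rfl⟩ := Submodule.mkQ_surjective P x
    change a • P.mkQ n = 0
    rw [← algebraMap_smul B a (P.mkQ n), ← map_smul, Submodule.mkQ_apply,
      Submodule.Quotient.mk_eq_zero]
    exact Submodule.smul_mem_smul (Ideal.mem_map_of_mem _ ha) Submodule.mem_top
  have hss : IsSemisimpleModule A (N ⧸ P) := by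
    letI := htors.module
    have : IsSemisimpleModule (A ⧸ maximalIdeal A) (N ⧸ P) := by
      letI : Field (A ⧸ maximalIdeal A) := Ideal.Quotient.field _
      infer_instance
    exact htors.isSemisimpleModule_iff.mp this
  have hartA : IsArtinian A (N ⧸ P) := inferInstance
  have hartB : IsArtinian B (N ⧸ P) := isArtinian_of_tower A hartA
  exact isFiniteLength_iff_isNoetherian_isArtinian.mpr ⟨inferInstance, hartB⟩

end FiniteLength

section Main

variable {A B : Type u} [CommRing A] [CommRing B] [IsLocalRing A] [IsLocalRing B]
  [IsNoetherianRing B]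

/-- Let `φ : A → B` be a ring homomorphism of local rings whose maximal ideals are generated by
regular sequences of the same length. A `B`-module `N` which becomes free of finite rank over `A`
after restriction of scalars along `φ` is free over `B`. -/
theorem free_of_free_restrictScalars (φ : A →+* B)
    (ysA : List A) (hysA : IsWeaklyRegular A ysA) (hmaxA : Ideal.ofList ysA = maximalIdeal A)
    (ysB : List B) (hysB : IsRegular B ysB) (hmaxB : Ideal.ofList ysB = maximalIdeal B)
    (hlen : ysB.length ≤ ysA.length)
    {N : Type u} [AddCommGroup N] [Module B N] [Nontrivial N]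
    {d : ℕ} (e : (Fin d → A) ≃+ N) (he : ∀ (a : A) (c : Fin d → A), e (a • c) = φ a • e c) :
    Module.Free B N := by
  letI : Algebra A B := φ.toAlgebra
  letI : Module A N := Module.compHom N φ
  haveI : IsScalarTower A B N := IsScalarTower.of_algebraMap_smul fun a n => rfl
  have hφ : ∀ a : A, algebraMap A B a = φ a := fun _ => rfl
  have hsmul : ∀ (a : A) (n : N), a • n = φ a • n := fun _ _ => rfl
  -- `e` is `A`-linear
  let eL : (Fin d → A) ≃ₗ[A] N :=
    { e with map_smul' := fun a c => by simpa [hsmul] using he a c }
  haveI : Module.Finite A N := Module.Finite.equiv eL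
  haveI : Module.Finite B N := Module.Finite.of_restrictScalars_finite A B N
  -- `φ` is a local homomorphism
  have hd : 0 < d := by
    rcases Nat.eq_zero_or_pos d with rfl | h
    · exfalso
      have : Subsingleton N := eL.symm.toEquiv.subsingleton
      exact not_subsingleton N this
    · exact h
  have hloc : ∀ a ∈ maximalIdeal A, φ a ∈ maximalIdeal B := by
    intro a ha
    by_contra hu
    have hunit : IsUnit (φ a) := by
      by_contra h
      exact hu ((IsLocalRing.mem_maximalIdeal _).mpr h)
    obtain ⟨u, hu'⟩ := hunit.exists_left_inv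
    let i₀ : Fin d := ⟨0, hd⟩
    have h1 : e (a • eL.symm (u • e (Pi.single i₀ 1))) = e (Pi.single i₀ 1) := by
      rw [he]
      have : e (eL.symm (u • e (Pi.single i₀ 1))) = u • e (Pi.single i₀ 1) :=
        eL.apply_symm_apply _
      rw [this, smul_smul, mul_comm, hu', one_smul]
    have h2 := e.injective h1
    have h3 := congrFun h2 i₀
    simp only [Pi.smul_apply, smul_eq_mul, Pi.single_eq_same] at h3
    exact (IsLocalRing.mem_maximalIdeal _).mp ha (IsUnit.of_mul_eq_one _ h3)
  -- the regular sequence
  have hreg1 : IsWeaklyRegular (Fin d → A) ysA := by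
    have h := hysA.isWeaklyRegular_lTensor (M₂ := Fin d → A)
    exact (LinearEquiv.isWeaklyRegular_congr (TensorProduct.rid A (Fin d → A)) ysA).mp h
  have hreg2 : IsWeaklyRegular N ysA := (eL.isWeaklyRegular_congr ysA).mp hreg1
  have hreg3 : IsWeaklyRegular N (ysA.map φ) :=
    (isWeaklyRegular_map_algebraMap_iff B N ysA).mpr hreg2
  have hmem : ∀ x ∈ ysA.map φ, x ∈ maximalIdeal B := by
    intro x hx
    obtain ⟨a, ha, rfl⟩ := List.mem_map.mp hx
    apply hloc
    rw [← hmaxA]
    exact Ideal.subset_span ha
  have hfl : IsFiniteLength B (N ⧸ Ideal.ofList (ysA.map φ) • (⊤ : Submodule B N)) := by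
    have := isFiniteLength_quotient_map_maximalIdeal_smul_top (A := A) (B := B) (N := N)
    rwa [← hmaxA, Ideal.map_ofList] at this
  exact free_of_isWeaklyRegular_of_isFiniteLength ysB hysB hmaxB N (ysA.map φ) hreg3 hmem
    (by simpa using hlen) hfl

end Main

end Fermat.Agent.S57
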