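import Mathlib.RingTheory.Regular.ProjectiveDimension
import Mathlib.RingTheory.Regular.RegularSequence
import Mathlib.RingTheory.FiniteLength
import Mathlib.RingTheory.SimpleModule.Basic
import Mathlib.Algebra.Homology.ShortComplex.ModuleCat
import Mathlib.RingTheory.LocalRing.Module

set_option autoImplicit false

namespace Fermat.Agent.S57

open CategoryTheory IsLocalRing RingTheory.Sequence

universe u

variable {B : Type u} [CommRing B] [IsLocalRing B]

/-- The projective dimension of a finite length module is bounded by that of the residue field. -/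
lemma hasProjectiveDimensionLT_of_isFiniteLength (n : ℕ)
    (hk : HasProjectiveDimensionLT (ModuleCat.of B (B ⧸ maximalIdeal B)) n)
    (T : Type u) [AddCommGroup T] [Module B T] (hT : IsFiniteLength B T) :
    HasProjectiveDimensionLT (ModuleCat.of B T) n := by
  induction hT with
  | @of_subsingleton M _ _ _ =>
    have := (ModuleCat.isZero_of_subsingleton (ModuleCat.of B M)).hasProjectiveDimensionLT_zero
    exact hasProjectiveDimensionLT_of_ge _ 0 n (Nat.zero_le _)
  | @of_simple_quotient M _ _ S hS _ ih =>
    have hsurj : Function.Surjective S.mkQ := Submodule.mkQ_surjective S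
    have hSE := LinearMap.shortExact_shortComplexKer hsurj
    -- the kernel of `mkQ` is `S`
    have e1 : S ≃ₗ[B] LinearMap.ker S.mkQ := LinearEquiv.ofEq _ _ (Submodule.ker_mkQ S).symm
    have h1 : HasProjectiveDimensionLT (ModuleCat.of B (LinearMap.ker S.mkQ)) n :=
      hasProjectiveDimensionLT_of_iso e1.toModuleIso n
    -- the quotient is the residue field
    obtain ⟨I, hI, ⟨e3⟩⟩ := isSimpleModule_iff_quot_maximal.mp hS
    have hIm : I = maximalIdeal B := IsLocalRing.eq_maximalIdeal hI
    subst hIm
    have h3 : HasProjectiveDimensionLT (ModuleCat.of B (M ⧸ S)) n :=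
      hasProjectiveDimensionLT_of_iso e3.symm.toModuleIso n
    exact hSE.hasProjectiveDimensionLT_X₂ n h1 h3

/-- A finitely generated module over a noetherian local ring whose maximal ideal is generated by a
regular sequence `ys`, admitting a weakly regular sequence `xs` in the maximal ideal of length at
least that of `ys` with finite length quotient, is free. -/
theorem free_of_isWeaklyRegular_of_isFiniteLength [IsNoetherianRing B]
    (ys : List B) (hys : IsRegular B ys) (hmax : Ideal.ofList ys = maximalIdeal B)
    (N : Type u) [AddCommGroup N] [Module B N] [Module.Finite B N] [Nontrivial N]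
    (xs : List B) (hxs : IsWeaklyRegular N xs) (hmem : ∀ x ∈ xs, x ∈ maximalIdeal B)
    (hlen : ys.length ≤ xs.length)
    (hfl : IsFiniteLength B (N ⧸ Ideal.ofList xs • (⊤ : Submodule B N))) :
    Module.Free B N := by
  -- projective dimension of the residue field
  have pdk : projectiveDimension (ModuleCat.of B (B ⧸ maximalIdeal B)) = ys.length := by
    rw [← ModuleCat.projectiveDimension_quotient_eq_length.{u} ys hys, hmax]
    exact projectiveDimension_eq_of_iso (Shrink.linearEquiv B _).symm.toModuleIso
  have hk : HasProjectiveDimensionLT (ModuleCat.of B (B ⧸ maximalIdeal B)) (ys.length + 1) :=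
    (projectiveDimension_le_iff _ _).mp pdk.le
  have hT := hasProjectiveDimensionLT_of_isFiniteLength (ys.length + 1) hk _ hfl
  have hT' : projectiveDimension
      (ModuleCat.of B (N ⧸ Ideal.ofList xs • (⊤ : Submodule B N))) ≤ ys.length :=
    (projectiveDimension_le_iff _ _).mpr hT
  have key := ModuleCat.projectiveDimension_quotient_eq_add_length_of_isWeaklyRegular
    (ModuleCat.of B N) xs hxs hmem
  have hle : projectiveDimension (ModuleCat.of B N) + (xs.length : WithBot ℕ∞) ≤
      (0 : WithBot ℕ∞) + (xs.length : WithBot ℕ∞) := by
    rw [zero_add]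
    calc projectiveDimension (ModuleCat.of B N) + (xs.length : WithBot ℕ∞)
        = _ := key.symm
      _ ≤ (ys.length : WithBot ℕ∞) := hT'
      _ ≤ (xs.length : WithBot ℕ∞) := by exact_mod_cast hlen
  have hle0 : projectiveDimension (ModuleCat.of B N) ≤ ((0 : ℕ) : WithBot ℕ∞) := by
    simpa using ENat.WithBot.add_le_add_natCast_right_iff.mp hle
  have hproj : Projective (ModuleCat.of B N) :=
    (projective_iff_hasProjectiveDimensionLE_zero _).mpr ((projectiveDimension_le_iff _ _).mp hle0)
  have : Module.Projective B N := (IsProjective.iff_projective _).mpr hproj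
  exact Module.free_of_flat_of_isLocalRing

end Fermat.Agent.S57
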