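import Fermat.Prelude.Def_Algebra_PatchingDatum
import Mathlib.RingTheory.MvPowerSeries.Inverse
import Mathlib.RingTheory.MvPowerSeries.Equiv
import Mathlib.RingTheory.Regular.RegularSequence
import Mathlib.RingTheory.DiscreteValuationRing.Basic
import Mathlib.RingTheory.FiniteLength
import Mathlib.RingTheory.Regular.Flat
import Mathlib.Algebra.Module.Torsion.Basic

set_option autoImplicit false
set_option linter.style.haveILetI false
set_option linter.unusedSectionVars false

namespace Fermat.Agent.S57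

open MvPowerSeries IsLocalRing RingTheory.Sequence

section Basic

variable {𝒪 : Type} [CommRing 𝒪] {r : ℕ} {R : Type} [CommRing R] [Algebra 𝒪 R]
  {M : Type} [AddCommGroup M] [Module R M]
  (L : Algebra.PatchingLevel 𝒪 r R M ⊥)

/-- The `φ`-semilinear additive map `B^d → N`, `c ↦ ∑ φ(c i) • b i`. -/
noncomputable def coordHom : (Fin L.d → MvPowerSeries (Fin r) 𝒪) →+ L.N where
  toFun c := ∑ i, L.φ (c i) • L.b i
  map_zero' := by simp
  map_add' c c' := by simp [add_smul, Finset.sum_add_distrib]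

lemma coordHom_apply (c : Fin L.d → MvPowerSeries (Fin r) 𝒪) :
    coordHom L c = ∑ i, L.φ (c i) • L.b i := rfl

lemma coordHom_smul (s : MvPowerSeries (Fin r) 𝒪) (c : Fin L.d → MvPowerSeries (Fin r) 𝒪) :
    coordHom L (s • c) = L.φ s • coordHom L c := by
  simp [coordHom_apply, Finset.smul_sum, mul_smul]

lemma coordHom_injective : Function.Injective (coordHom L) := by
  rw [injective_iff_map_eq_zero]
  intro c hc
  have := (L.b_rel c).1 hc
  funext i
  simpa using this i

lemma coordHom_surjective : Function.Surjective (coordHom L) := fun x => by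
  obtain ⟨c, hc⟩ := L.b_span x
  exact ⟨c, hc.symm⟩

/-- The `φ`-semilinear additive equivalence `B^d ≃+ N`. -/
noncomputable def coordEquiv : (Fin L.d → MvPowerSeries (Fin r) 𝒪) ≃+ L.N :=
  AddEquiv.ofBijective (coordHom L) ⟨coordHom_injective L, coordHom_surjective L⟩

lemma coordEquiv_apply (c : Fin L.d → MvPowerSeries (Fin r) 𝒪) :
    coordEquiv L c = ∑ i, L.φ (c i) • L.b i := rfl

lemma coordEquiv_smul (s : MvPowerSeries (Fin r) 𝒪) (c : Fin L.d → MvPowerSeries (Fin r) 𝒪) :
    coordEquiv L (s • c) = L.φ s • coordEquiv L c := coordHom_smul L s c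

lemma nontrivial_N [Nontrivial M] : Nontrivial L.N := by
  obtain ⟨m, hm⟩ := exists_ne (0 : M)
  obtain ⟨x, rfl⟩ := L.π_surjective m
  exact ⟨⟨x, 0, fun h => hm (by rw [h, map_zero])⟩⟩

lemma d_pos [Nontrivial M] : 0 < L.d := by
  by_contra h
  have hd : L.d = 0 := by omega
  have := nontrivial_N L
  obtain ⟨x, hx⟩ := exists_ne (0 : L.N)
  obtain ⟨c, hc⟩ := L.b_span x
  apply hx
  rw [hc]
  have : IsEmpty (Fin L.d) := by rw [hd]; infer_instance
  simp

lemma φ_injective [Nontrivial M] : Function.Injective L.φ := by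
  rw [injective_iff_map_eq_zero]
  intro c hc
  have h := (L.b_rel (fun _ => c)).1 (by simp [hc])
  simpa using h ⟨0, d_pos L⟩

lemma span_range_b : Submodule.span (MvPowerSeries (Fin r) 𝒪) (Set.range L.b) = ⊤ := by
  rw [eq_top_iff]
  rintro x -
  obtain ⟨c, rfl⟩ := L.b_span x
  exact Submodule.sum_mem _ fun i _ => Submodule.smul_mem _ _ (Submodule.subset_span ⟨i, rfl⟩)

lemma finite_N : Module.Finite (MvPowerSeries (Fin r) 𝒪) L.N :=
  ⟨(Submodule.fg_def).2 ⟨Set.range L.b, Set.finite_range _, span_range_b L⟩⟩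

end Basic

section Local

variable {𝒪 : Type} [CommRing 𝒪] [IsLocalRing 𝒪] {r : ℕ}

/-- Any `𝒪`-algebra endomorphism of `𝒪⟦X₁,…,X_r⟧` is a local homomorphism. -/
lemma isUnit_of_isUnit_algHom (φ : MvPowerSeries (Fin r) 𝒪 →ₐ[𝒪] MvPowerSeries (Fin r) 𝒪)
    (f : MvPowerSeries (Fin r) 𝒪) (hf : IsUnit (φ f)) : IsUnit f := by
  by_contra hnu
  set c : 𝒪 := constantCoeff (φ f) with hc
  have hcu : IsUnit c := MvPowerSeries.isUnit_iff_constantCoeff.1 hf
  have hfc : ¬ IsUnit (constantCoeff f) := fun h => hnu (MvPowerSeries.isUnit_iff_constantCoeff.2 h)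
  -- `f - C c` is a unit
  have h1 : IsUnit (f - C c) := by
    rw [MvPowerSeries.isUnit_iff_constantCoeff, map_sub, constantCoeff_C]
    have hmem : constantCoeff f ∈ IsLocalRing.maximalIdeal 𝒪 := (IsLocalRing.mem_maximalIdeal _).2 hfc
    have h2 : ¬ (constantCoeff f - c) ∈ IsLocalRing.maximalIdeal 𝒪 := by
      intro h3
      have : c ∈ IsLocalRing.maximalIdeal 𝒪 := by
        have := Ideal.sub_mem _ hmem h3
        simpa using this
      exact (IsLocalRing.mem_maximalIdeal _).1 this hcu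
    simpa [IsLocalRing.mem_maximalIdeal] using h2
  have h2 : IsUnit (φ (f - C c)) := h1.map φ
  have h3 : φ (C c) = C c := by
    have := φ.commutes c
    simpa [MvPowerSeries.algebraMap_apply] using this
  rw [map_sub, h3, MvPowerSeries.isUnit_iff_constantCoeff, map_sub, constantCoeff_C, ← hc,
    sub_self] at h2
  exact not_isUnit_zero h2

lemma algHom_mem_maximalIdeal (φ : MvPowerSeries (Fin r) 𝒪 →ₐ[𝒪] MvPowerSeries (Fin r) 𝒪)
    (f : MvPowerSeries (Fin r) 𝒪) (hf : f ∈ IsLocalRing.maximalIdeal (MvPowerSeries (Fin r) 𝒪)) :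
    φ f ∈ IsLocalRing.maximalIdeal (MvPowerSeries (Fin r) 𝒪) := by
  rw [IsLocalRing.mem_maximalIdeal, mem_nonunits_iff] at hf ⊢
  exact fun h => hf (isUnit_of_isUnit_algHom φ f h)

lemma X_mem_maximalIdeal (i : Fin r) :
    (X i : MvPowerSeries (Fin r) 𝒪) ∈ IsLocalRing.maximalIdeal (MvPowerSeries (Fin r) 𝒪) := by
  rw [IsLocalRing.mem_maximalIdeal, mem_nonunits_iff, MvPowerSeries.isUnit_iff_constantCoeff]
  simp

lemma C_mem_maximalIdeal {a : 𝒪} (ha : a ∈ IsLocalRing.maximalIdeal 𝒪) :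
    (C a : MvPowerSeries (Fin r) 𝒪) ∈ IsLocalRing.maximalIdeal (MvPowerSeries (Fin r) 𝒪) := by
  rw [IsLocalRing.mem_maximalIdeal, mem_nonunits_iff] at ha ⊢
  rw [MvPowerSeries.isUnit_iff_constantCoeff]
  simpa using ha

end Local

section WR

variable {𝒪 : Type} [CommRing 𝒪]
  {r : ℕ} {R : Type} [CommRing R] [Algebra 𝒪 R]
  {M : Type} [AddCommGroup M] [Module R M]
  (L : Algebra.PatchingLevel 𝒪 r R M ⊥)

/-- a weakly regular sequence on `B` is weakly regular on `B^d`. -/
lemma isWeaklyRegular_pi {B : Type} [CommRing B] (d : ℕ) {ys : List B}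
    (h : IsWeaklyRegular B ys) : IsWeaklyRegular (Fin d → B) ys :=
  ((TensorProduct.rid B (Fin d → B)).isWeaklyRegular_congr ys).mp
    (h.isWeaklyRegular_lTensor (M₂ := Fin d → B))

/-- transport of weak regularity along `φ`: if `ys` is weakly regular on `B`, then
`ys.map φ` is weakly regular on `N`. -/
theorem isWeaklyRegular_map_φ {ys : List (MvPowerSeries (Fin r) 𝒪)}
    (h : IsWeaklyRegular (MvPowerSeries (Fin r) 𝒪) ys) :
    IsWeaklyRegular L.N (ys.map L.φ) := by
  refine ((coordEquiv L).isWeaklyRegular_congr (as := ys) (bs := ys.map L.φ) ?_).mp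
    (isWeaklyRegular_pi L.d h)
  exact List.forall₂_map_right_iff.mpr <| List.forall₂_same.mpr fun s _ x => coordEquiv_smul L s x

end WR

section FL

variable {𝒪 : Type} [CommRing 𝒪] [IsLocalRing 𝒪] [IsNoetherianRing 𝒪]
  {r : ℕ} {R : Type} [CommRing R] [Algebra 𝒪 R]
  {M : Type} [AddCommGroup M] [Module R M]
  (L : Algebra.PatchingLevel 𝒪 r R M ⊥)

lemma sub_C_constantCoeff_mem (c : MvPowerSeries (Fin r) 𝒪) :
    c - C (constantCoeff c) ∈ maximalIdeal (MvPowerSeries (Fin r) 𝒪) := by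
  rw [IsLocalRing.mem_maximalIdeal, mem_nonunits_iff, MvPowerSeries.isUnit_iff_constantCoeff]
  simp

theorem isFiniteLength_quot (I : Ideal (MvPowerSeries (Fin r) 𝒪))
    (hI : ∀ f ∈ maximalIdeal (MvPowerSeries (Fin r) 𝒪), L.φ f ∈ I) :
    IsFiniteLength (MvPowerSeries (Fin r) 𝒪)
      (L.N ⧸ (I • ⊤ : Submodule (MvPowerSeries (Fin r) 𝒪) L.N)) := by
  classical
  set B := MvPowerSeries (Fin r) 𝒪 with hB
  have hfin : Module.Finite B L.N := finite_N L
  rw [isFiniteLength_iff_isNoetherian_isArtinian]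
  refine ⟨inferInstance, ?_⟩
  -- the `𝒪`-module structure
  letI : Module 𝒪 L.N := Module.compHom L.N (algebraMap 𝒪 B)
  haveI : IsScalarTower 𝒪 B L.N := IsScalarTower.of_algebraMap_smul fun _ _ => rfl
  set Q := L.N ⧸ (I • ⊤ : Submodule B L.N) with hQ
  have hφC : ∀ a : 𝒪, L.φ (C a) = C a := fun a => by
    have := L.φ.commutes a
    simpa [MvPowerSeries.algebraMap_apply] using this
  have hsmul : ∀ (a : 𝒪) (x : L.N), a • x = (C a : B) • x := fun a x => by
    show (algebraMap 𝒪 B a) • x = _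
    rw [MvPowerSeries.algebraMap_apply, Algebra.algebraMap_self, RingHom.id_apply]
  -- `Q` is killed by the maximal ideal of `𝒪`
  have htors : Module.IsTorsionBySet 𝒪 Q (maximalIdeal 𝒪 : Set 𝒪) := by
    rintro q ⟨a, ha⟩
    obtain ⟨x, rfl⟩ := Submodule.Quotient.mk_surjective _ q
    show a • Submodule.Quotient.mk x = 0
    rw [← Submodule.Quotient.mk_smul, Submodule.Quotient.mk_eq_zero, hsmul]
    refine Submodule.smul_mem_smul ?_ Submodule.mem_top
    rw [← hφC]
    exact hI _ (C_mem_maximalIdeal ha)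
  letI : Module (𝒪 ⧸ maximalIdeal 𝒪) Q := htors.module
  haveI : IsScalarTower 𝒪 (𝒪 ⧸ maximalIdeal 𝒪) Q := htors.isScalarTower
  -- `Q` is finitely generated over `𝒪`
  have hfinO : Module.Finite 𝒪 Q := by
    refine ⟨(Submodule.fg_def).2 ⟨Set.range fun i => (Submodule.Quotient.mk (L.b i) : Q),
      Set.finite_range _, ?_⟩⟩
    rw [eq_top_iff]
    rintro q -
    obtain ⟨x, rfl⟩ := Submodule.Quotient.mk_surjective _ q
    obtain ⟨c, rfl⟩ := L.b_span x
    have : (Submodule.Quotient.mk (∑ i, L.φ (c i) • L.b i) : Q)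
        = ∑ i, (constantCoeff (c i)) • (Submodule.Quotient.mk (L.b i) : Q) := by
      rw [← Submodule.mkQ_apply, map_sum]
      refine Finset.sum_congr rfl fun i _ => ?_
      rw [Submodule.mkQ_apply, ← Submodule.Quotient.mk_smul, hsmul, Submodule.Quotient.eq,
        ← sub_smul]
      refine Submodule.smul_mem_smul ?_ Submodule.mem_top
      rw [← hφC, ← map_sub]
      exact hI _ (sub_C_constantCoeff_mem _)
    rw [this]
    exact Submodule.sum_mem _ fun i _ => Submodule.smul_mem _ _ (Submodule.subset_span ⟨i, rfl⟩)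
  haveI : Module.Finite (𝒪 ⧸ maximalIdeal 𝒪) Q :=
    Module.Finite.of_restrictScalars_finite 𝒪 _ Q
  letI : Field (𝒪 ⧸ maximalIdeal 𝒪) := Ideal.Quotient.field _
  haveI : IsArtinian (𝒪 ⧸ maximalIdeal 𝒪) Q := inferInstance
  haveI : IsArtinian 𝒪 Q :=
    isArtinian_of_surjective_algebraMap (R := 𝒪 ⧸ maximalIdeal 𝒪) Ideal.Quotient.mk_surjective
  exact isArtinian_of_tower 𝒪 inferInstance

end FL

end Fermat.Agent.S57
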