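import Mathlib.RingTheory.Regular.ProjectiveDimension
import Fermat.Agent.S57.PowerSeriesRegular

set_option autoImplicit false

namespace Fermat.Agent.S57

open MvPowerSeries CategoryTheory

universe u

variable {O : Type u} [CommRing O] [IsDomain O] [IsDiscreteValuationRing O]

/-- The residue field of `O⟦X₁,…,X_r⟧` (`O` a DVR) has projective dimension `r + 1`. -/
theorem projectiveDimension_residueField (r : ℕ) :
    projectiveDimension
      (ModuleCat.of (MvPowerSeries (Fin r) O)
        (Shrink.{u} (MvPowerSeries (Fin r) O ⧸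
          IsLocalRing.maximalIdeal (MvPowerSeries (Fin r) O)))) = ((r + 1 : ℕ) : WithBot ℕ∞) := by
  obtain ⟨ϖ, hϖ⟩ := IsDiscreteValuationRing.exists_irreducible O
  have h := ModuleCat.projectiveDimension_quotient_eq_length.{u, u}
    (C ϖ :: List.ofFn (fun i : Fin r => (X i : MvPowerSeries (Fin r) O))) (isRegular_params r hϖ)
  rw [ofList_params_eq_maximalIdeal r hϖ] at h
  rw [h]
  simp

end Fermat.Agent.S57
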